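import Fermat.Agent.S26.H70.CubeOf
import Fermat.Agent.S26.H120.InH
import Fermat.Agent.S26.H60.GI
import Fermat.Agent.S26.H911.BaseChange

/-!
# Row S26, block CUBE, leaf C5: `cube_of`, exact skeleton statement, and the integrated form
(helper70)

* `cube_of` : VERBATIM the statement `Skel.cube_of` of `Skel/CubeSkel.lean` (row-lead helper987),
  C3 supplied by helper120's `H120.inH_of_curveCube` (on main);
* `cube_of_model` : `Stmt.Cube T K` from the inputs that depend on the Picard model only
  (`IsLocal`, `CurveCube`, `LocalOnBase`, `GenericTrivial`) and `CurvesGenerate`;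
  geometric integrality and base change are supplied by `H60.hGI_all` and `H911.baseChange`.
-/

set_option autoImplicit false
universe u

open CategoryTheory CategoryTheory.Limits AlgebraicGeometry NeronModelInfra GoodReductionJacobian

namespace Fermat.Agent.S26.H70

variable {K : Type u} [Field K] [IsAlgClosed K] {T : PicTheory.{u}}

/-- **C5.** The theorem of the cube (exact statement of `Skel.cube_of`). -/
theorem cube_of (hT : T.IsLocal)
    (hC1 : ∀ (K' : Type u) [Field K'] [IsAlgClosed K'], Stmt.CurveCube T K')
    (hGI : ∀ (K' : Type u) [Field K'] [IsAlgClosed K'] (X : AbVar K'),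
      GeometricallyIntegral X.str)
    (hGen : ∀ (K' : Type u) [Field K'] [IsAlgClosed K'], Stmt.CurvesGenerate K')
    (hBC : Stmt.BaseChange K) (hP4 : Stmt.LocalOnBase T K) (hP5 : Stmt.GenericTrivial T K) :
    Stmt.Cube T K :=
  cube_of' (fun _ _ _ hT' hC1' hGI' X M Γ p => H120.inH_of_curveCube hT' hC1' hGI' X M Γ p)
    hT hC1 hGI hGen hBC hP4 hP5

/-- The theorem of the cube from the model-dependent inputs and `CurvesGenerate`. -/
theorem cube_of_model (hT : T.IsLocal)
    (hC1 : ∀ (K' : Type u) [Field K'] [IsAlgClosed K'], Stmt.CurveCube T K')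
    (hGen : ∀ (K' : Type u) [Field K'] [IsAlgClosed K'], Stmt.CurvesGenerate K')
    (hP4 : Stmt.LocalOnBase T K) (hP5 : Stmt.GenericTrivial T K) :
    Stmt.Cube T K :=
  cube_of hT hC1 H60.hGI_all hGen H911.baseChange hP4 hP5

end Fermat.Agent.S26.H70
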