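import Fermat.Agent.S26.H70.CubeTransl

/-!
# Row S26, block CUBE, leaf C5 (`cube_of`), part (c'): translates of a nonempty open set cover
an abelian variety (helper70)
-/

set_option autoImplicit false
universe u

open CategoryTheory CategoryTheory.Limits AlgebraicGeometry NeronModelInfra GoodReductionJacobian

namespace Fermat.Agent.S26.H70

noncomputable section

variable {K : Type u} [Field K] [IsAlgClosed K] (X : AbVar K)

/-- The `K`-point of a closed point. -/
def ptOfClosed [LocallyOfFiniteType X.str] (p : X.A) (hp : IsClosed {p}) : X.Pt :=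
  ⟨pointOfClosedPoint X.str p hp, pointOfClosedPoint_comp X.str p hp⟩

theorem ptOfClosed_apply [LocallyOfFiniteType X.str] (p : X.A) (hp : IsClosed {p})
    (a : Spec (CommRingCat.of K)) : (ptOfClosed X p hp).1 a = p :=
  pointOfClosedPoint_apply X.str p hp a

omit [IsAlgClosed K] in
theorem const_id (t : X.Pt) : X.const (𝟙 _) t = t :=
  Subtype.ext (Category.id_comp _)

/-- Translation by `y⁻¹ u` maps `y` to `u`. -/
theorem comp_transl_inv_mul (y u : X.Pt) :
    y.1 ≫ X.transl (X.law.mul (𝟙 _) (X.law.inv (𝟙 _) y) u) = u.1 := by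
  rw [AbVar.comp_transl (𝟙 _) y, const_id, ← X.law.mul_assoc, X.law.mul_inv_cancel,
    X.law.one_mul]

/-- A nonempty open subset of a Jacobson space contains a closed point; more generally every
nonempty locally closed subset does. -/
theorem exists_closedPoint_mem {Y : Type*} [TopologicalSpace Y] [JacobsonSpace Y] {S : Set Y}
    (hS : IsLocallyClosed S) (hne : S.Nonempty) : ∃ p ∈ S, IsClosed {p} := by
  have h := JacobsonSpace.closure_inter_closedPoints_eq_closure hS
  have hne' : (S ∩ closedPoints Y).Nonempty := by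
    rw [← closure_nonempty_iff, h, closure_nonempty_iff]
    exact hne
  obtain ⟨p, hpS, hp⟩ := hne'
  exact ⟨p, hpS, hp⟩

/-- The translates of a nonempty open subset cover an abelian variety. -/
theorem exists_transl_mem (U₀ : X.A.Opens) (hU : (U₀ : Set X.A).Nonempty) (p : X.A) :
    ∃ t : X.Pt, p ∈ (X.transl t) ⁻¹ᵁ U₀ := by
  have : Smooth X.str := X.bundle.smooth
  have : JacobsonSpace X.A := LocallyOfFiniteType.jacobsonSpace X.str
  obtain ⟨u, huU, hu⟩ := exists_closedPoint_mem U₀.2.isLocallyClosed hU
  -- the closed set of points none of whose translates lies in `U₀`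
  by_contra hcon
  push Not at hcon
  let C : Set X.A := ⋂ t : X.Pt, ((X.transl t) ⁻¹ᵁ U₀ : Set X.A)ᶜ
  have hC : IsClosed C := isClosed_iInter fun t => ((X.transl t) ⁻¹ᵁ U₀).2.isClosed_compl
  have hpC : p ∈ C := Set.mem_iInter.2 fun t => hcon t
  obtain ⟨p', hp'C, hp'⟩ := exists_closedPoint_mem hC.isLocallyClosed ⟨p, hpC⟩
  set y := ptOfClosed X p' hp' with hy
  set yu := ptOfClosed X u hu with hyu
  have ht := Set.mem_iInter.1 hp'C (X.law.mul (𝟙 _) (X.law.inv (𝟙 _) y) yu)
  apply ht
  show (X.transl _) p' ∈ U₀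
  have e1 : p' = y.1 (IsLocalRing.closedPoint K) := (ptOfClosed_apply X p' hp' _).symm
  rw [e1, ← Scheme.Hom.comp_apply, comp_transl_inv_mul, ptOfClosed_apply]
  exact huU

end

end Fermat.Agent.S26.H70
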