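import Fermat.Agent.S26.H70.CubeCover

/-!
# Row S26, block CUBE, leaf C5 (`cube_of`), part (b'): the generic fibre (helper70)

For a geometric point `ξ : Spec K' ⟶ A` the universal cube class vanishes on
`Spec K' × (A × A)`: it is the cube class of the base change `X'` of the abelian variety at the
tautological `K'`-point, and `H_{M'} = X'(K')`.
-/

set_option autoImplicit false
universe u

open CategoryTheory CategoryTheory.Limits AlgebraicGeometry NeronModelInfra GoodReductionJacobian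

namespace Fermat.Agent.S26.H70

noncomputable section

variable {K : Type u} [Field K] {X : AbVar K} {T : PicTheory.{u}}

/-- The generic-fibre computation, for an abstract base change `X'` of `X` along `ρ`. -/
theorem map_generic_aux {K' : Type u} [Field K'] (X' : AbVar K')
    (ρ : Spec (CommRingCat.of K') ⟶ Spec (CommRingCat.of K)) (π : X'.A ⟶ X.A)
    (hπ : π ≫ X.str = X'.str ≫ ρ) (hpb : IsPullback π X'.str X.str ρ)
    (hmul : ∀ {S : Scheme.{u}} (s : S ⟶ Spec (CommRingCat.of K')) (a b : X'.SPt s),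
      (X'.law.mul s a b).1 ≫ π =
        (X.law.mul (s ≫ ρ) (pushPt π hπ s a) (pushPt π hπ s b)).1)
    (hH' : ∀ (M' : T.Pic X'.A) (x : X'.Pt), X'.InH T M' x)
    (ξ : Spec (CommRingCat.of K') ⟶ X.A) (hξ : ξ ≫ X.str = ρ) (M : T.Pic X.A) :
    T.map (prodMapLeft X.str (ξ ≫ X.str) (prodStr X.str X.str) ξ rfl) (N₀ X T M) = 0 := by
  subst hξ
  -- the tautological point
  let ξ' : X'.Pt := ⟨hpb.lift ξ (𝟙 _) (by rw [Category.id_comp]), hpb.lift_snd _ _ _⟩
  have hξ' : ξ'.1 ≫ π = ξ := hpb.lift_fst _ _ _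
  set s' : pullback (ξ ≫ X.str) (prodStr X.str X.str) ⟶ Spec (CommRingCat.of K') :=
    pullback.fst _ _ with hs'
  have hb : (pullback.snd (ξ ≫ X.str) (prodStr X.str X.str) ≫ pullback.fst X.str X.str) ≫ X.str
      = s' ≫ ξ ≫ X.str := by
    rw [Category.assoc]
    exact (pullback.condition (f := ξ ≫ X.str) (g := prodStr X.str X.str)).symm
  have hc : (pullback.snd (ξ ≫ X.str) (prodStr X.str X.str) ≫ pullback.snd X.str X.str) ≫ X.str
      = s' ≫ ξ ≫ X.str := by
    rw [Category.assoc, ← pullback.condition (f := X.str) (g := X.str)]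
    exact (pullback.condition (f := ξ ≫ X.str) (g := prodStr X.str X.str)).symm
  let b' : X'.SPt s' := ⟨hpb.lift _ s' hb, hpb.lift_snd _ _ _⟩
  let c' : X'.SPt s' := ⟨hpb.lift _ s' hc, hpb.lift_snd _ _ _⟩
  have e := theta_pushPt (T := T) π hπ hmul s' (X'.const s' ξ') b' c' M
  rw [hH' (T.map π M) ξ' _ s' b' c'] at e
  rw [← e]
  refine map_prodMapLeft_N₀ ξ M _ _ _ ?_ ?_ ?_
  · show (s' ≫ ξ'.1) ≫ π = pullback.fst _ _ ≫ ξ
    rw [Category.assoc, hξ']
  · exact hpb.lift_fst _ _ _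
  · exact hpb.lift_fst _ _ _

/-- The universal cube class vanishes on the geometric fibre `Spec K' × (A × A)`. -/
theorem map_generic_N₀ (hBC : Stmt.BaseChange K)
    (hH : ∀ (K' : Type u) [Field K'] [IsAlgClosed K'] (X' : AbVar K') (M' : T.Pic X'.A)
      (x : X'.Pt), X'.InH T M' x)
    (X : AbVar K) (M : T.Pic X.A) (K' : Type u) [Field K'] [IsAlgClosed K']
    (ξ : Spec (CommRingCat.of K') ⟶ X.A) :
    T.map (prodMapLeft X.str (ξ ≫ X.str) (prodStr X.str X.str) ξ rfl) (N₀ X T M) = 0 := by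
  obtain ⟨X', π, hπ, hpb, -, hmul⟩ := hBC X K' (Spec.preimage (ξ ≫ X.str)).hom
  have hρ : ξ ≫ X.str = Spec.map (CommRingCat.ofHom (Spec.preimage (ξ ≫ X.str)).hom) := by
    rw [CommRingCat.ofHom_hom, Spec.map_preimage]
  exact map_generic_aux X' _ π hπ hpb hmul (hH K' X') ξ hρ M

end

end Fermat.Agent.S26.H70
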