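import Fermat.Agent.S26.H70.CubeNat

/-!
# Row S26, block CUBE, leaf C5 (`cube_of`), part (b): geometric preliminaries (helper70)

* `geometricallyIntegral_prodStr` : the product of two geometrically integral `K`-schemes is
  geometrically integral (second factor flat and universally open, first locally of finite type);
* instances for an abelian variety.
-/

set_option autoImplicit false
universe u

open CategoryTheory CategoryTheory.Limits AlgebraicGeometry NeronModelInfra GoodReductionJacobian

namespace Fermat.Agent.S26.H70

noncomputable section

variable {K : Type u} [Field K]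

/-- The product of two geometrically integral `K`-schemes is geometrically integral. -/
theorem geometricallyIntegral_prodStr {Y Z : Scheme.{u}} (y : Y ⟶ Spec (CommRingCat.of K))
    (z : Z ⟶ Spec (CommRingCat.of K)) [GeometricallyIntegral y] [GeometricallyIntegral z]
    [Flat z] [UniversallyOpen z] [LocallyOfFiniteType y] :
    GeometricallyIntegral (prodStr y z) := by
  rw [geometricallyIntegral_iff]
  intro L _ ℓ Z'' fst'' snd'' hpb
  -- the base change `Y_L`
  have hYL : IsIntegral (pullback y ℓ) :=
    (GeometricallyIntegral.geometrically_isIntegral (f := y)) ℓ _ _ (IsPullback.of_hasPullback y ℓ)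
  have hN : IsLocallyNoetherian (pullback y ℓ) :=
    LocallyOfFiniteType.isLocallyNoetherian (pullback.snd y ℓ)
  -- the map `Z'' ⟶ Y_L`
  have hw : (fst'' ≫ pullback.fst y z) ≫ y = snd'' ≫ ℓ := by
    rw [Category.assoc]; exact hpb.w
  let q : Z'' ⟶ pullback y ℓ := pullback.lift (fst'' ≫ pullback.fst y z) snd'' hw
  have hq1 : q ≫ pullback.fst y ℓ = fst'' ≫ pullback.fst y z := pullback.lift_fst _ _ _
  have hq2 : q ≫ pullback.snd y ℓ = snd'' := pullback.lift_snd _ _ _
  have hbig : IsPullback (q ≫ pullback.snd y ℓ) fst'' ℓ (pullback.fst y z ≫ y) := by
    rw [hq2]; exact hpb.flip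
  have hleft : IsPullback q fst'' (pullback.fst y ℓ) (pullback.fst y z) :=
    IsPullback.of_right hbig hq1 (IsPullback.of_hasPullback y ℓ).flip
  have h1 : GeometricallyIntegral q :=
    MorphismProperty.of_isPullback (P := @GeometricallyIntegral) hleft.flip inferInstance
  have h2 : Flat q :=
    MorphismProperty.of_isPullback (P := @Flat) hleft.flip inferInstance
  have h3 : UniversallyOpen q :=
    MorphismProperty.of_isPullback (P := @UniversallyOpen) hleft.flip inferInstance
  exact GeometricallyIntegral.isIntegral_of_isLocallyNoetherian q

namespace AbVarInst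

variable (X : AbVar K)

theorem smooth : Smooth X.str := X.bundle.smooth

theorem proper : IsProper X.str := X.bundle.proper

end AbVarInst

end

end Fermat.Agent.S26.H70
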