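import Fermat.Agent.S26.CubeFormal

/-!
# Row S26, block CUBE, leaf C5 (`cube_of`), part (a): naturality and the universal case
(helper70)

* `theta_natural` : `ψ^* Θ(a, b, c; M) = Θ(ψ^*a, ψ^*b, ψ^*c; M)`;
* `theta_eq_map_univ` : every `Θ(a, b, c; M)` is a pull-back of the universal one on
  `A × (A × A)`;
* `theta_pushPt` : compatibility of `Θ` with a base change of the abelian variety;
* `theta_self_one_one` : `Θ(a, 0, 0; M) = 0`.
-/

set_option autoImplicit false
universe u

open CategoryTheory CategoryTheory.Limits AlgebraicGeometry NeronModelInfra GoodReductionJacobian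

namespace Fermat.Agent.S26.H70

noncomputable section

variable {K : Type u} [Field K] {X : AbVar K} {T : PicTheory.{u}}

/-- `ψ^* (a b)^* M = ((ψ^* a)(ψ^* b))^* M`. -/
theorem map_map_mul {S S' : Scheme.{u}} (s : S ⟶ Spec (CommRingCat.of K))
    (s' : S' ⟶ Spec (CommRingCat.of K)) (ψ : S' ⟶ S) (hψ : ψ ≫ s = s') (a b : X.SPt s)
    (M : T.Pic X.A) :
    T.map ψ (T.map (X.law.mul s a b).1 M) =
      T.map (X.law.mul s' (schemeHomOverComp ψ hψ a) (schemeHomOverComp ψ hψ b)).1 M := by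
  rw [← T.map_comp, ← X.law.mul_natural s s' ψ hψ a b]
  rfl

/-- `ψ^* a^* M = (ψ^* a)^* M`. -/
theorem map_map_pt {S S' : Scheme.{u}} (s : S ⟶ Spec (CommRingCat.of K))
    (s' : S' ⟶ Spec (CommRingCat.of K)) (ψ : S' ⟶ S) (hψ : ψ ≫ s = s') (a : X.SPt s)
    (M : T.Pic X.A) :
    T.map ψ (T.map a.1 M) = T.map (schemeHomOverComp ψ hψ a).1 M := by
  rw [← T.map_comp]
  rfl

/-- Naturality of the cube class. -/
theorem theta_natural {S S' : Scheme.{u}} (s : S ⟶ Spec (CommRingCat.of K))
    (s' : S' ⟶ Spec (CommRingCat.of K)) (ψ : S' ⟶ S) (hψ : ψ ≫ s = s') (a b c : X.SPt s)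
    (M : T.Pic X.A) :
    T.map ψ (X.theta T s a b c M) =
      X.theta T s' (schemeHomOverComp ψ hψ a) (schemeHomOverComp ψ hψ b)
        (schemeHomOverComp ψ hψ c) M := by
  simp only [AbVar.theta, map_add, map_sub]
  rw [map_map_mul s s' ψ hψ, map_map_mul s s' ψ hψ, map_map_mul s s' ψ hψ,
    map_map_mul s s' ψ hψ, map_map_pt s s' ψ hψ, map_map_pt s s' ψ hψ,
    map_map_pt s s' ψ hψ, X.law.mul_natural s s' ψ hψ a b]

/-- `Θ(a, 0, 0; M) = 0`. -/
theorem theta_self_one_one (hT : T.IsLocal) {S : Scheme.{u}}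
    (s : S ⟶ Spec (CommRingCat.of K)) (a : X.SPt s) (M : T.Pic X.A) :
    X.theta T s a (X.law.one s) (X.law.one s) M = 0 := by
  rw [AbVar.theta, X.law.mul_one, X.law.mul_one, X.law.mul_one, map_one_eq_zero hT]
  abel

/-! ## The universal case -/

section Univ

variable (X)

/-- `A × (A × A)`. -/
abbrev S₀ : Scheme.{u} := pullback X.str (prodStr X.str X.str)

/-- The structure map of `A × (A × A)`. -/
abbrev s₀ : S₀ X ⟶ Spec (CommRingCat.of K) := prodStr X.str (prodStr X.str X.str)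

/-- The first universal point. -/
def a₀ : X.SPt (s₀ X) := ⟨pullback.fst _ _, rfl⟩

/-- The second universal point. -/
def b₀ : X.SPt (s₀ X) :=
  ⟨pullback.snd X.str (prodStr X.str X.str) ≫ pullback.fst X.str X.str, by
    rw [Category.assoc]
    exact (pullback.condition (f := X.str) (g := prodStr X.str X.str)).symm⟩

/-- The third universal point. -/
def c₀ : X.SPt (s₀ X) :=
  ⟨pullback.snd X.str (prodStr X.str X.str) ≫ pullback.snd X.str X.str, by
    rw [Category.assoc, ← pullback.condition (f := X.str) (g := X.str)]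
    exact (pullback.condition (f := X.str) (g := prodStr X.str X.str)).symm⟩

/-- The universal cube class on `A × (A × A)`. -/
def N₀ (T : PicTheory.{u}) (M : T.Pic X.A) : T.Pic (S₀ X) :=
  X.theta T (s₀ X) (a₀ X) (b₀ X) (c₀ X) M

variable {X}

/-- The classifying map `(a, (b, c)) : S ⟶ A × (A × A)`. -/
def classMap {S : Scheme.{u}} (s : S ⟶ Spec (CommRingCat.of K)) (a b c : X.SPt s) :
    S ⟶ S₀ X :=
  pullback.lift a.1 (pullback.lift b.1 c.1 (by rw [b.2, c.2]))
    (by rw [a.2, pullback.lift_fst_assoc, b.2])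

theorem classMap_s₀ {S : Scheme.{u}} (s : S ⟶ Spec (CommRingCat.of K)) (a b c : X.SPt s) :
    classMap s a b c ≫ s₀ X = s := by
  rw [classMap, pullback.lift_fst_assoc, a.2]

theorem classMap_a₀ {S : Scheme.{u}} (s : S ⟶ Spec (CommRingCat.of K)) (a b c : X.SPt s) :
    schemeHomOverComp (classMap s a b c) (classMap_s₀ s a b c) (a₀ X) = a :=
  Subtype.ext (by
    show classMap s a b c ≫ pullback.fst _ _ = a.1
    rw [classMap, pullback.lift_fst])

theorem classMap_b₀ {S : Scheme.{u}} (s : S ⟶ Spec (CommRingCat.of K)) (a b c : X.SPt s) :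
    schemeHomOverComp (classMap s a b c) (classMap_s₀ s a b c) (b₀ X) = b :=
  Subtype.ext (by
    show classMap s a b c ≫ pullback.snd _ _ ≫ pullback.fst _ _ = b.1
    rw [classMap, pullback.lift_snd_assoc, pullback.lift_fst])

theorem classMap_c₀ {S : Scheme.{u}} (s : S ⟶ Spec (CommRingCat.of K)) (a b c : X.SPt s) :
    schemeHomOverComp (classMap s a b c) (classMap_s₀ s a b c) (c₀ X) = c :=
  Subtype.ext (by
    show classMap s a b c ≫ pullback.snd _ _ ≫ pullback.snd _ _ = c.1
    rw [classMap, pullback.lift_snd_assoc, pullback.lift_snd])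

/-- Every cube class is a pull-back of the universal one. -/
theorem theta_eq_map_univ {S : Scheme.{u}} (s : S ⟶ Spec (CommRingCat.of K))
    (a b c : X.SPt s) (M : T.Pic X.A) :
    X.theta T s a b c M = T.map (classMap s a b c) (N₀ X T M) := by
  rw [N₀, theta_natural (s₀ X) s (classMap s a b c) (classMap_s₀ s a b c), classMap_a₀,
    classMap_b₀, classMap_c₀]

/-- Pull-back of the universal class along any morphism, in terms of points. -/
theorem map_N₀ {S : Scheme.{u}} (s : S ⟶ Spec (CommRingCat.of K)) (ψ : S ⟶ S₀ X)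
    (hψ : ψ ≫ s₀ X = s) (a b c : X.SPt s) (ha : ψ ≫ (a₀ X).1 = a.1) (hb : ψ ≫ (b₀ X).1 = b.1)
    (hc : ψ ≫ (c₀ X).1 = c.1) (M : T.Pic X.A) :
    T.map ψ (N₀ X T M) = X.theta T s a b c M := by
  rw [N₀, theta_natural (s₀ X) s ψ hψ]
  congr 1 <;> exact Subtype.ext (by assumption)

end Univ

/-! ## Base change of the abelian variety -/

section BC

variable {K' : Type u} [Field K'] {X' : AbVar K'}
  {ρ : Spec (CommRingCat.of K') ⟶ Spec (CommRingCat.of K)} (π : X'.A ⟶ X.A)
  (hπ : π ≫ X.str = X'.str ≫ ρ)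
  (hmul : ∀ {S : Scheme.{u}} (s : S ⟶ Spec (CommRingCat.of K')) (a b : X'.SPt s),
    (X'.law.mul s a b).1 ≫ π =
      (X.law.mul (s ≫ ρ) (pushPt π hπ s a) (pushPt π hπ s b)).1)

include hmul in
theorem pushPt_mul {S : Scheme.{u}} (s : S ⟶ Spec (CommRingCat.of K')) (a b : X'.SPt s) :
    pushPt π hπ s (X'.law.mul s a b) =
      X.law.mul (s ≫ ρ) (pushPt π hπ s a) (pushPt π hπ s b) :=
  Subtype.ext (hmul s a b)

theorem map_pushPt {S : Scheme.{u}} (s : S ⟶ Spec (CommRingCat.of K')) (a : X'.SPt s)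
    (M : T.Pic X.A) : T.map (pushPt π hπ s a).1 M = T.map a.1 (T.map π M) := by
  rw [← T.map_comp]
  rfl

include hmul in
/-- Compatibility of the cube class with a base change of the abelian variety. -/
theorem theta_pushPt {S : Scheme.{u}} (s : S ⟶ Spec (CommRingCat.of K')) (a b c : X'.SPt s)
    (M : T.Pic X.A) :
    X.theta T (s ≫ ρ) (pushPt π hπ s a) (pushPt π hπ s b) (pushPt π hπ s c) M =
      X'.theta T s a b c (T.map π M) := by
  rw [AbVar.theta, AbVar.theta, ← pushPt_mul π hπ hmul, ← pushPt_mul π hπ hmul,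
    ← pushPt_mul π hπ hmul, ← pushPt_mul π hπ hmul]
  simp only [map_pushPt]

end BC

end

end Fermat.Agent.S26.H70
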