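import Fermat.Agent.S26.H70.CubeGeneric

/-!
# Row S26, block CUBE, leaf C5: the theorem of the cube from the leaves (helper70)

`cube_of_inH` : `Stmt.Cube T K` from
* `H_M = A(K')` for all abelian varieties over all algebraically closed fields (`hH`, = C2–C4),
* geometric integrality of abelian varieties over `K` (`hGI`),
* base change of abelian varieties (`hBC`), local triviality over the base (`hP4`) and generic
  triviality (`hP5`).

`cube_of_C3` : the same with `hH` replaced by the statement of C3 (`inH_of_curveCube`) and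
`Stmt.CurvesGenerate`; `cube_of'` : the exact statement `cube_of` of the row-lead's skeleton
`Skel/CubeSkel.lean`, with the statement of C3 as the only additional hypothesis.

Proof: the universal case `N₀ = Θ(p₁, p₂, p₃; M)` on `A × (A × A)`.  `N₀` vanishes on the
geometric generic fibre `Spec K' × (A × A)` (`map_generic_N₀`), hence over a nonempty open
`U₀ ⊆ A` (P5), hence over all its translates (`map_N₀_preimage`), which cover `A`
(`exists_transl_mem`); so `N₀` is pulled back from `A × (0, 0)` (P4), where it vanishes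
(`theta_self_one_one`).
-/

set_option autoImplicit false
universe u

open CategoryTheory CategoryTheory.Limits AlgebraicGeometry NeronModelInfra GoodReductionJacobian

namespace Fermat.Agent.S26.H70

noncomputable section

variable {K : Type u} [Field K] [IsAlgClosed K] {T : PicTheory.{u}}

/-- The `K`-point `(0, 0)` of `A × A`. -/
def zeroZero (X : AbVar K) : KPt (prodStr X.str X.str) :=
  ⟨pullback.lift X.zero.1 X.zero.1 (by rw [X.zero.2]), by
    rw [pullback.lift_fst_assoc, X.zero.2]⟩

omit [IsAlgClosed K] in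
theorem one_coe (X : AbVar K) {S : Scheme.{u}} (s : S ⟶ Spec (CommRingCat.of K)) :
    (X.law.one s).1 = s ≫ X.zero.1 := by
  rw [← AbVar.const_one]
  rfl

omit [IsAlgClosed K] in
/-- The universal class vanishes on `A × (0, 0)`. -/
theorem map_inl_N₀ (hT : T.IsLocal) (X : AbVar K) (M : T.Pic X.A) :
    T.map (inl X.str (prodStr X.str X.str) (zeroZero X)) (N₀ X T M) = 0 := by
  rw [map_N₀ X.str (inl X.str (prodStr X.str X.str) (zeroZero X)) (inl_prodStr _ _ _)
    RelativeGroupLaw.idPoint (X.law.one X.str) (X.law.one X.str) ?_ ?_ ?_ M,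
    theta_self_one_one hT]
  · show inl _ _ _ ≫ pullback.fst _ _ = 𝟙 _
    rw [inl, pullback.lift_fst]
  · show inl _ _ _ ≫ pullback.snd _ _ ≫ pullback.fst _ _ = _
    rw [inl, pullback.lift_snd_assoc, one_coe, Category.assoc]
    congr 1
    exact pullback.lift_fst _ _ _
  · show inl _ _ _ ≫ pullback.snd _ _ ≫ pullback.snd _ _ = _
    rw [inl, pullback.lift_snd_assoc, one_coe, Category.assoc]
    congr 1
    exact pullback.lift_snd _ _ _

/-- The geometric generic point of an integral scheme. -/
def geomGeneric (Y : Scheme.{u}) [IsIntegral Y] :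
    Spec (CommRingCat.of (AlgebraicClosure Y.functionField)) ⟶ Y :=
  Spec.map (CommRingCat.ofHom (algebraMap Y.functionField (AlgebraicClosure Y.functionField))) ≫
    Y.fromSpecStalk (genericPoint Y)

omit [Field K] [IsAlgClosed K] in
theorem geomGeneric_apply (Y : Scheme.{u}) [IsIntegral Y]
    (p : Spec (CommRingCat.of (AlgebraicClosure Y.functionField))) :
    geomGeneric Y p = genericPoint Y := by
  rw [geomGeneric, Scheme.Hom.comp_apply]
  have hF : IsField (Y.presheaf.stalk (genericPoint Y)) :=
    (Field.toIsField Y.functionField)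
  let _ : Field (Y.presheaf.stalk (genericPoint Y)) := hF.toField
  have hsub : Subsingleton (Spec (Y.presheaf.stalk (genericPoint Y))) :=
    inferInstanceAs (Subsingleton (PrimeSpectrum (Y.presheaf.stalk (genericPoint Y))))
  rw [Subsingleton.elim (Spec.map _ p) (IsLocalRing.closedPoint _)]
  exact Scheme.fromSpecStalk_closedPoint

/-- **C5**, with `H_M = A(K')` as hypothesis. -/
theorem cube_of_inH (hT : T.IsLocal)
    (hH : ∀ (K' : Type u) [Field K'] [IsAlgClosed K'] (X' : AbVar K') (M' : T.Pic X'.A)
      (x : X'.Pt), X'.InH T M' x)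
    (hGI : ∀ X : AbVar K, GeometricallyIntegral X.str)
    (hBC : Stmt.BaseChange K) (hP4 : Stmt.LocalOnBase T K) (hP5 : Stmt.GenericTrivial T K) :
    Stmt.Cube T K := by
  intro X S s a b c M
  show X.theta T s a b c M = 0
  rw [theta_eq_map_univ]
  suffices h : N₀ X T M = 0 by rw [h, map_zero]
  have : GeometricallyIntegral X.str := hGI X
  have : Smooth X.str := X.bundle.smooth
  have : IsProper X.str := X.bundle.proper
  have : IsIntegral X.A := GeometricallyIntegral.isIntegral_of_subsingleton X.str
  have : GeometricallyIntegral (prodStr X.str X.str) := geometricallyIntegral_prodStr _ _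
  have : IsProper (prodStr X.str X.str) := by unfold prodStr; infer_instance
  -- generic triviality
  obtain ⟨U₀, hU₀, hN⟩ := hP5 X.A (pullback X.str X.str) X.str (prodStr X.str X.str)
    (N₀ X T M) (AlgebraicClosure X.A.functionField) (geomGeneric X.A) (geomGeneric_apply X.A)
    (map_generic_N₀ hBC hH X M _ _)
  -- local triviality over the base
  have hloc : ∀ p : X.A, ∃ U : X.A.Opens, p ∈ U ∧
      T.map (prodMapLeft X.str (U.ι ≫ X.str) (prodStr X.str X.str) U.ι rfl) (N₀ X T M) = 0 := by
    intro p
    obtain ⟨t, ht⟩ := exists_transl_mem X U₀ hU₀ p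
    exact ⟨_, ht, map_N₀_preimage hT M t (hH K X M t) U₀ hN⟩
  rw [hP4 X.A (pullback X.str X.str) X.str (prodStr X.str X.str) (zeroZero X) (N₀ X T M) hloc,
    map_inl_N₀ hT, map_zero]

/-- **C5** from C3 (`inH_of_curveCube`, as a hypothesis) and the other leaves. -/
theorem cube_of_C3 (hT : T.IsLocal)
    (hC3 : ∀ (K' : Type u) [Field K'] [IsAlgClosed K'] (X : AbVar K') (M : T.Pic X.A)
      (Γ : X.PtdCurve) (p : KPt Γ.str), X.InH T M (Γ.image p))
    (hGI : ∀ X : AbVar K, GeometricallyIntegral X.str)
    (hGen : ∀ (K' : Type u) [Field K'] [IsAlgClosed K'], Stmt.CurvesGenerate K')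
    (hBC : Stmt.BaseChange K) (hP4 : Stmt.LocalOnBase T K) (hP5 : Stmt.GenericTrivial T K) :
    Stmt.Cube T K :=
  cube_of_inH hT
    (fun K' _ _ X' M' x =>
      hGen K' X' (X'.InH T M') (AbVar.inH_zero hT M')
        (fun _ _ hx hy => AbVar.inH_mul hT M' hx hy) (fun _ hx => AbVar.inH_neg hT M' hx)
        (fun Γ p => hC3 K' X' M' Γ p) x)
    hGI hBC hP4 hP5

/-- **C5**: the exact statement `cube_of` of `Skel/CubeSkel.lean`, with the statement of C3
(`Skel.inH_of_curveCube`) as an additional hypothesis `hC3`. -/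
theorem cube_of'
    (hC3 : ∀ (K' : Type u) [Field K'] [IsAlgClosed K'], T.IsLocal → Stmt.CurveCube T K' →
      (∀ X : AbVar K', GeometricallyIntegral X.str) →
      ∀ (X : AbVar K') (M : T.Pic X.A) (Γ : X.PtdCurve) (p : KPt Γ.str),
        X.InH T M (Γ.image p))
    (hT : T.IsLocal)
    (hC1 : ∀ (K' : Type u) [Field K'] [IsAlgClosed K'], Stmt.CurveCube T K')
    (hGI : ∀ (K' : Type u) [Field K'] [IsAlgClosed K'] (X : AbVar K'),
      GeometricallyIntegral X.str)
    (hGen : ∀ (K' : Type u) [Field K'] [IsAlgClosed K'], Stmt.CurvesGenerate K')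
    (hBC : Stmt.BaseChange K) (hP4 : Stmt.LocalOnBase T K) (hP5 : Stmt.GenericTrivial T K) :
    Stmt.Cube T K :=
  cube_of_C3 hT (fun K' _ _ X M Γ p => hC3 K' hT (hC1 K') (hGI K') X M Γ p) (hGI K) hGen hBC hP4
    hP5

end

end Fermat.Agent.S26.H70
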