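import Fermat.Agent.S26.H70.CubeGeom

/-!
# Row S26, block CUBE, leaf C5 (`cube_of`), part (c): translates of an open set (helper70)
-/

set_option autoImplicit false
universe u

open CategoryTheory CategoryTheory.Limits AlgebraicGeometry NeronModelInfra GoodReductionJacobian

namespace Fermat.Agent.S26.H70

noncomputable section

variable {K : Type u} [Field K] {X : AbVar K} {T : PicTheory.{u}}

theorem prodMapLeft_fst {X₁ X' W : Scheme.{u}} (x : X₁ ⟶ Spec (CommRingCat.of K))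
    (x' : X' ⟶ Spec (CommRingCat.of K)) (w : W ⟶ Spec (CommRingCat.of K)) (f : X' ⟶ X₁)
    (hf : f ≫ x = x') :
    prodMapLeft x x' w f hf ≫ pullback.fst x w = pullback.fst x' w ≫ f := by
  rw [prodMapLeft, pullback.map, pullback.lift_fst]

theorem prodMapLeft_snd {X₁ X' W : Scheme.{u}} (x : X₁ ⟶ Spec (CommRingCat.of K))
    (x' : X' ⟶ Spec (CommRingCat.of K)) (w : W ⟶ Spec (CommRingCat.of K)) (f : X' ⟶ X₁)
    (hf : f ≫ x = x') :
    prodMapLeft x x' w f hf ≫ pullback.snd x w = pullback.snd x' w := by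
  rw [prodMapLeft, pullback.map, pullback.lift_snd, Category.comp_id]

/-- The restriction of the universal class to `Y × (A × A)` for `f : Y ⟶ A`, in terms of
points. -/
theorem map_prodMapLeft_N₀ {Y : Scheme.{u}} (f : Y ⟶ X.A) (M : T.Pic X.A)
    (a b c : X.SPt (prodStr (f ≫ X.str) (prodStr X.str X.str)))
    (ha : a.1 = pullback.fst _ _ ≫ f)
    (hb : b.1 = pullback.snd _ _ ≫ pullback.fst _ _)
    (hc : c.1 = pullback.snd _ _ ≫ pullback.snd _ _) :
    T.map (prodMapLeft X.str (f ≫ X.str) (prodStr X.str X.str) f rfl) (N₀ X T M) =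
      X.theta T (prodStr (f ≫ X.str) (prodStr X.str X.str)) a b c M := by
  refine map_N₀ _ _ ?_ a b c ?_ ?_ ?_ M
  · show prodMapLeft _ _ _ f rfl ≫ pullback.fst _ _ ≫ X.str = pullback.fst _ _ ≫ f ≫ X.str
    rw [← Category.assoc, prodMapLeft_fst, Category.assoc]
  · show prodMapLeft _ _ _ f rfl ≫ pullback.fst _ _ = a.1
    rw [prodMapLeft_fst, ha]
  · show prodMapLeft _ _ _ f rfl ≫ pullback.snd _ _ ≫ pullback.fst _ _ = b.1
    rw [← Category.assoc, prodMapLeft_snd, hb]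
  · show prodMapLeft _ _ _ f rfl ≫ pullback.snd _ _ ≫ pullback.snd _ _ = c.1
    rw [← Category.assoc, prodMapLeft_snd, hc]

section Pts

variable (X)

/-- The three restricted universal points on `Y × (A × A)`. -/
def aOf {Y : Scheme.{u}} (f : Y ⟶ X.A) : X.SPt (prodStr (f ≫ X.str) (prodStr X.str X.str)) :=
  ⟨pullback.fst _ _ ≫ f, by rw [Category.assoc]⟩

def bOf {Y : Scheme.{u}} (f : Y ⟶ X.A) : X.SPt (prodStr (f ≫ X.str) (prodStr X.str X.str)) :=
  ⟨pullback.snd _ _ ≫ pullback.fst _ _, by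
    rw [Category.assoc]
    exact (pullback.condition (f := f ≫ X.str) (g := prodStr X.str X.str)).symm⟩

def cOf {Y : Scheme.{u}} (f : Y ⟶ X.A) : X.SPt (prodStr (f ≫ X.str) (prodStr X.str X.str)) :=
  ⟨pullback.snd _ _ ≫ pullback.snd _ _, by
    rw [Category.assoc, ← pullback.condition (f := X.str) (g := X.str)]
    exact (pullback.condition (f := f ≫ X.str) (g := prodStr X.str X.str)).symm⟩

end Pts

theorem map_prodMapLeft_N₀' {Y : Scheme.{u}} (f : Y ⟶ X.A) (M : T.Pic X.A) :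
    T.map (prodMapLeft X.str (f ≫ X.str) (prodStr X.str X.str) f rfl) (N₀ X T M) =
      X.theta T (prodStr (f ≫ X.str) (prodStr X.str X.str)) (aOf X f) (bOf X f) (cOf X f) M :=
  map_prodMapLeft_N₀ f M _ _ _ rfl rfl rfl

theorem transl_str (t : X.Pt) : X.transl t ≫ X.str = X.str :=
  (X.law.mul X.str RelativeGroupLaw.idPoint (X.const X.str t)).2

/-- If the universal class vanishes over `U₀ × (A × A)` and `t ∈ H_M`, then it vanishes over
`T_t⁻¹(U₀) × (A × A)`. -/
theorem map_N₀_preimage (hT : T.IsLocal) (M : T.Pic X.A) (t : X.Pt) (ht : X.InH T M t)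
    (U₀ : X.A.Opens)
    (h0 : T.map (prodMapLeft X.str (U₀.ι ≫ X.str) (prodStr X.str X.str) U₀.ι rfl)
      (N₀ X T M) = 0) :
    T.map (prodMapLeft X.str (((X.transl t) ⁻¹ᵁ U₀).ι ≫ X.str) (prodStr X.str X.str)
      ((X.transl t) ⁻¹ᵁ U₀).ι rfl) (N₀ X T M) = 0 := by
  set V : X.A.Opens := (X.transl t) ⁻¹ᵁ U₀ with hV
  have hres : (X.transl t ∣_ U₀) ≫ U₀.ι = V.ι ≫ X.transl t := morphismRestrict_ι _ _
  rw [map_prodMapLeft_N₀' V.ι M, ← AbVar.theta_mul_const hT M ht]
  -- the map `τ : V × W ⟶ U₀ × W`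
  have hτ1 : (V.ι ≫ X.str) ≫ 𝟙 _ = (X.transl t ∣_ U₀) ≫ U₀.ι ≫ X.str := by
    rw [Category.comp_id, ← Category.assoc, hres, Category.assoc, transl_str]
  have hτ2 : prodStr X.str X.str ≫ 𝟙 _ = 𝟙 _ ≫ prodStr X.str X.str := by
    rw [Category.comp_id, Category.id_comp]
  let τ : pullback (V.ι ≫ X.str) (prodStr X.str X.str) ⟶
      pullback (U₀.ι ≫ X.str) (prodStr X.str X.str) :=
    pullback.map _ _ _ _ (X.transl t ∣_ U₀) (𝟙 _) (𝟙 _) hτ1 hτ2
  have hτfst : τ ≫ pullback.fst _ _ = pullback.fst _ _ ≫ (X.transl t ∣_ U₀) :=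
    pullback.lift_fst _ _ _
  have hτsnd : τ ≫ pullback.snd _ _ = pullback.snd _ _ := by
    show pullback.map _ _ _ _ _ _ _ _ _ ≫ _ = _
    rw [pullback.map, pullback.lift_snd, Category.comp_id]
  have key : T.map (τ ≫ prodMapLeft X.str (U₀.ι ≫ X.str) (prodStr X.str X.str) U₀.ι rfl)
      (N₀ X T M) =
      X.theta T (prodStr (V.ι ≫ X.str) (prodStr X.str X.str))
        (X.law.mul _ (aOf X V.ι) (X.const _ t)) (bOf X V.ι) (cOf X V.ι) M := by
    refine map_N₀ _ _ ?_ _ _ _ ?_ ?_ ?_ M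
    · show (τ ≫ prodMapLeft _ _ _ U₀.ι rfl) ≫ pullback.fst _ _ ≫ X.str =
        pullback.fst _ _ ≫ V.ι ≫ X.str
      rw [Category.assoc, ← Category.assoc (prodMapLeft _ _ _ _ _), prodMapLeft_fst,
        Category.assoc, ← Category.assoc τ, hτfst, Category.assoc, ← Category.assoc _ U₀.ι,
        hres, Category.assoc, transl_str]
    · show (τ ≫ prodMapLeft _ _ _ U₀.ι rfl) ≫ pullback.fst _ _ = _
      rw [← AbVar.comp_transl, Category.assoc, prodMapLeft_fst, ← Category.assoc, hτfst,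
        Category.assoc, hres]
      rfl
    · show (τ ≫ prodMapLeft _ _ _ U₀.ι rfl) ≫ pullback.snd _ _ ≫ pullback.fst _ _ = _
      rw [Category.assoc, ← Category.assoc (prodMapLeft _ _ _ _ _), prodMapLeft_snd,
        ← Category.assoc, hτsnd]
      rfl
    · show (τ ≫ prodMapLeft _ _ _ U₀.ι rfl) ≫ pullback.snd _ _ ≫ pullback.snd _ _ = _
      rw [Category.assoc, ← Category.assoc (prodMapLeft _ _ _ _ _), prodMapLeft_snd,
        ← Category.assoc, hτsnd]
      rfl
  rw [← key, T.map_comp, h0, map_zero]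

end

end Fermat.Agent.S26.H70
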